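import Fermat.Agent.S55.B.Res
import Fermat.Agent.S33.Abs.ASPoly

/-!
# S33/BIN : binomial estimates for a real valuation with `w p = 1`  (abstract, `RVal`)          key `S33/BIN`

`F` a field of characteristic `0`, `w : RVal F`, `w p = 1`.  `ϖ ∈ F` with `w ϖ = 1/(p-1)` and `p / ϖ^(p-1) ≡ -1`.
API: `S05/Defs.lean`, `S55/B/Res.lean` (`GE_sum`, `GT_sum`, `GE_prod`, `GE_pow_sub_pow`, ...).
Proofs: `add_pow`, `Nat.Prime.dvd_choose_self`; every middle term `C(p,i) x^i`, `0 < i < p`, has `w ≥ 1 + i w x ≥ 1 + w x`.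
(We use `(1 + x)^p = 1 + p x Q(x) + x^p`, `Q(x) = 1 + x Q'(x)` of `S33/Abs/ASPoly.lean`.)
-/

set_option autoImplicit false

namespace Fermat.Agent.S33

open Fermat.Agent.S05 Fermat.Agent.S55.B

variable {F : Type*} [Field F] {w : RVal F} {p : ℕ}

theorem binAux_asQ {x : F} (hx : w.GE x 0) (p : ℕ) : w.GE (asQ p x) 0 :=
  asQ_mem (OO w).toSubring p hx

theorem binAux_asQ' {x : F} (hx : w.GE x 0) (p : ℕ) : w.GE (asQ' p x) 0 :=
  asQ'_mem (OO w).toSubring p hx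

/-- units `≡ 1` : products -/
theorem GE_mul_sub_one {x y : F} {t : ℝ} (ht : 0 ≤ t) (hx : w.GE (x - 1) t) (hy : w.GE (y - 1) t) :
    w.GE (x * y - 1) t := by
  have e : x * y - 1 = (x - 1) * (y - 1) + (x - 1) + (y - 1) := by ring
  rw [e]
  exact (((hx.mul hy).mono (by linarith)).add hx).add hy

theorem GT_mul_sub_one {x y : F} {t : ℝ} (ht : 0 ≤ t) (hx : w.GT (x - 1) t) (hy : w.GT (y - 1) t) :
    w.GT (x * y - 1) t := by
  have e : x * y - 1 = (x - 1) * (y - 1) + (x - 1) + (y - 1) := by ring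
  rw [e]
  exact (((hx.mul_GE (hy.GE le_rfl)).mono (by linarith)).add hx).add hy

theorem EQ_zero_of_GT_sub_one {x : F} (hx : w.GT (x - 1) 0) : w.EQ x 0 := by
  have := (RVal.EQ_one (v := w)).add_GT hx
  rwa [add_sub_cancel] at this

/-- units `≡ 1` : inverses -/
theorem GE_inv_sub_one {x : F} {t : ℝ} (ht : 0 < t) (hx : w.GE (x - 1) t) : w.GE (x⁻¹ - 1) t := by
  have h0 : w.EQ x 0 := EQ_zero_of_GT_sub_one (hx.GT ht)
  have e : x⁻¹ - 1 = -((x - 1) * x⁻¹) := by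
    have := h0.1
    field_simp
    ring
  rw [e]
  exact ((hx.mul (h0.inv.GE le_rfl)).mono (by linarith)).neg

theorem GT_inv_sub_one {x : F} {t : ℝ} (ht : 0 ≤ t) (hx : w.GT (x - 1) t) : w.GT (x⁻¹ - 1) t := by
  have h0 : w.EQ x 0 := EQ_zero_of_GT_sub_one (hx.mono ht)
  have e : x⁻¹ - 1 = -((x - 1) * x⁻¹) := by
    have := h0.1
    field_simp
    ring
  rw [e]
  exact ((hx.mul_GE (h0.inv.GE le_rfl)).mono (by linarith)).neg

theorem GE_pow_sub_one {x : F} {t : ℝ} (ht : 0 ≤ t) (hx : w.GE (x - 1) t) (n : ℕ) :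
    w.GE (x ^ n - 1) t := by
  induction n with
  | zero => simpa using RVal.GE_zero (v := w) t
  | succ n ih =>
    rw [pow_succ]
    exact GE_mul_sub_one ht ih hx

/-- `(1 + x)^p = 1 + x^p + O(p x)` -/
theorem GE_one_add_pow (hp : p.Prime) (hw : w.w (p : F) = 1) {x : F} {s : ℝ} (hs : 0 ≤ s)
    (hx : w.GE x s) : w.GE ((1 + x) ^ p - 1 - x ^ p) (1 + s) := by
  have e : (1 + x) ^ p - 1 - x ^ p = p * x * asQ p x := by rw [one_add_pow_eq hp]; ring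
  rw [e]
  have h1 : w.GE (p : F) 1 := Or.inr hw.ge
  exact ((h1.mul hx).mul (binAux_asQ (hx.mono hs) p)).mono (by linarith)

/-- `x ≡ 1 (t) ⟹ x^p ≡ 1 (min (1 + t, p t))` -/
theorem GE_pow_p_sub_one (hp : p.Prime) (hw : w.w (p : F) = 1) {x : F} {t : ℝ} (ht : 0 ≤ t)
    (hx : w.GE (x - 1) t) : w.GE (x ^ p - 1) (min (1 + t) (p * t)) := by
  have e : x ^ p - 1 = ((1 + (x - 1)) ^ p - 1 - (x - 1) ^ p) + (x - 1) ^ p := by ring
  rw [e]
  exact ((GE_one_add_pow hp hw ht hx).mono (min_le_left _ _)).add ((hx.pow p).mono (min_le_right _ _))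

/-- `(1 + ϖ h)^p ≡ 1 + ϖ^p (h^p - h)` modulo `> p/(p-1)` -/
theorem GT_one_add_pi_pow (hp : p.Prime) (hp2 : p ≠ 2) (hw : w.w (p : F) = 1) {ϖ : F}
    (hϖ : w.EQ ϖ (1 / ((p : ℝ) - 1))) (hϖ' : w.GT ((p : F) / ϖ ^ (p - 1) + 1) 0) {h : F}
    (hh : w.GE h 0) :
    w.GT ((1 + ϖ * h) ^ p - 1 - ϖ ^ p * (h ^ p - h)) ((p : ℝ) / ((p : ℝ) - 1)) := by
  have hp1 : (0 : ℝ) < (p : ℝ) - 1 := by
    have : (1 : ℝ) < p := by exact_mod_cast hp.one_lt
    linarith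
  have hpos : 0 < 1 / ((p : ℝ) - 1) := by positivity
  have hpp : (p : ℝ) / ((p : ℝ) - 1) = 1 + 1 / ((p : ℝ) - 1) := by field_simp; ring
  have hϖ0 := hϖ.1
  have hpow : ϖ ^ p = ϖ ^ (p - 1) * ϖ := by rw [← pow_succ, Nat.sub_add_cancel hp.pos]
  have e : (1 + ϖ * h) ^ p - 1 - ϖ ^ p * (h ^ p - h) =
      ϖ * h * (ϖ ^ (p - 1) * ((p : F) / ϖ ^ (p - 1) + 1)) +
        p * (ϖ * ϖ) * (h * h * asQ' p (ϖ * h)) := by
    rw [one_add_pow_eq hp, asQ_eq hp, mul_pow, hpow]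
    have : ϖ ^ (p - 1) ≠ 0 := pow_ne_zero _ hϖ0
    field_simp
    ring
  rw [e]
  have h1 : w.GE (p : F) 1 := Or.inr hw.ge
  have hϖG : w.GE ϖ (1 / ((p : ℝ) - 1)) := hϖ.GE le_rfl
  have hϖh : w.GE (ϖ * h) 0 := (hϖG.mul hh).mono (by linarith)
  have hpw : w.GE (ϖ ^ (p - 1)) 1 := by
    refine (hϖG.pow (p - 1)).mono ?_
    rw [Nat.cast_sub hp.one_le, Nat.cast_one]
    field_simp
    exact le_refl _
  refine RVal.GT.add ?_ ?_
  · exact ((hϖG.mul hh).mul_GT (hpw.mul_GT hϖ')).mono (by rw [hpp]; linarith)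
  · exact (((h1.mul (hϖG.mul hϖG)).mul ((hh.mul hh).mul (binAux_asQ' hϖh p)))).GT
      (by rw [hpp]; linarith)

/-- if `g^p ≡ 1` modulo `> 0` in residue characteristic `p`, then `g ≡ 1` modulo `> 0` -/
theorem GT_sub_one_of_pow (hp : p.Prime) (hw : w.w (p : F) = 1) {g : F} (hg : w.GT (g ^ p - 1) 0) :
    w.GT (g - 1) 0 := by
  have hpR : (0 : ℝ) < p := by exact_mod_cast hp.pos
  have h0 : w.EQ (g ^ p) 0 := EQ_zero_of_GT_sub_one hg
  have hg0 : g ≠ 0 := fun h => h0.1 (by rw [h, zero_pow hp.ne_zero])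
  have hgw : w.w g = 0 := by
    have := h0.2
    rw [RVal.w_pow hg0] at this
    rcases mul_eq_zero.mp this with h | h
    · linarith
    · exact h
  have hy : w.GE (g - 1) 0 := RVal.GE.sub (Or.inr hgw.ge) ((RVal.EQ_one (v := w)).GE le_rfl)
  have e : (g - 1) ^ p = (g ^ p - 1) - p * (g - 1) * asQ p (g - 1) := by
    have := one_add_pow_eq hp (g - 1)
    rw [add_sub_cancel] at this
    rw [this]; ring
  have h1 : w.GT (p : F) 0 := Or.inr (by rw [hw]; exact one_pos)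
  have h2 : w.GT ((g - 1) ^ p) 0 := by
    rw [e]
    exact hg.sub (((h1.mul_GE hy).mul_GE (binAux_asQ hy p)).mono (by linarith))
  by_cases hy0 : g - 1 = 0
  · exact Or.inl hy0
  · have := h2.lt_w (pow_ne_zero _ hy0)
    rw [RVal.w_pow hy0] at this
    exact Or.inr (by
      by_contra hneg
      push Not at hneg
      nlinarith)

/-- **depth of a `p`-th power**: `g ≡ 1 (> 0)`, `g^p ≡ 1 (≥ p/(p-1))` ⟹ `g ≡ 1 (≥ 1/(p-1))` -/
theorem GE_sub_one_of_pow (hp : p.Prime) (hw : w.w (p : F) = 1) {g : F} (hg : w.GT (g - 1) 0)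
    (hgp : w.GE (g ^ p - 1) ((p : ℝ) / ((p : ℝ) - 1))) : w.GE (g - 1) (1 / ((p : ℝ) - 1)) := by
  have hp1 : (0 : ℝ) < (p : ℝ) - 1 := by
    have : (1 : ℝ) < p := by exact_mod_cast hp.one_lt
    linarith
  by_cases hy0 : g - 1 = 0
  · exact Or.inl hy0
  by_contra hcon
  have hlt : w.w (g - 1) < 1 / ((p : ℝ) - 1) := by
    by_contra h
    exact hcon (Or.inr (not_lt.mp h))
  have hs : 0 < w.w (g - 1) := hg.lt_w hy0
  have hlt' : ((p : ℝ) - 1) * w.w (g - 1) < 1 := by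
    rw [lt_div_iff₀ hp1] at hlt
    linarith
  have e : g ^ p - 1 = (g - 1) ^ p + p * (g - 1) * asQ p (g - 1) := by
    have := one_add_pow_eq hp (g - 1)
    rw [add_sub_cancel] at this
    rw [this]; ring
  have h1 : w.GE (p : F) 1 := Or.inr hw.ge
  have hyE : w.EQ (g - 1) (w.w (g - 1)) := RVal.EQ_self hy0
  have h2 : w.GT (p * (g - 1) * asQ p (g - 1)) (p * w.w (g - 1)) :=
    ((h1.mul (hyE.GE le_rfl)).mul (binAux_asQ (hg.GE le_rfl) p)).GT (by linarith)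
  have h3 := (hyE.pow p).add_GT h2
  rw [← e] at h3
  have h4 := hgp.le_w h3.1
  rw [h3.2, div_le_iff₀ hp1] at h4
  nlinarith

end Fermat.Agent.S33
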