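import Fermat.Agent.S55.B.LocS
import Fermat.Agent.S33.Val.Binom

/-!
# S33/CYC : cyclotomic constants and the value groups of the fixed fields of inertia          key `S33/CYC`

`q : Nat.Primes` (the prime `p`), `wq q`, `Iq q`, `Dq q` (S55/B).  `ζ` a primitive `q`-th root of unity, `ϖ = ζ - 1`.

* `w_pi`, `GT_pi`: `(1 + ϖ)^q = 1` gives `ϖ^(q-1) = - q Q(ϖ)`, `Q(ϖ) = 1 + ϖ Q'(ϖ)` a unit `≡ 1` (`S33/Abs/ASPoly.lean`).
* `GT_sigma_pi`: `σ ζ = ζ^c ⟹ σ ϖ / ϖ = 1 + ζ + … + ζ^(c-1) ≡ c`.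
* `w_int_of_fixed` (V1): `a` fixed by `Iq q` ⟹ `w a ∈ ℤ`:  `H' = stab (Dq q) a` is open (`IsOp.stab`), contains `Iq q`; `val_unr` + `base_val`.
* `w_of_relIndex`: `H ≤ Iq q` of finite index `n`, `a ∈ Fx H` ⟹ `n * w a ∈ ℤ` (`exists_norm_of_relIndex` with `Pres` for `Iq q`, the norm is fixed by `Iq q`).
* `exists_moves`: otherwise `ϖ ∈ Fx (Iq q)`, `w ϖ = 1/(q-1) ∉ ℤ` (`q ≠ 2`).
* `exists_fixed_congr` (V4): an integral `a` is `≡ 0` or `≡` a root of unity of order prime to `q` (`exists_root_congr`), fixed by `Iq q` (`apply_root_of_mem_Iq`).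
-/

set_option autoImplicit false

namespace Fermat.Agent.S33

open Fermat.Agent.S05 Fermat.Agent.S55.B ExtCitation
open Fermat.Agent.S55 (Dq Iq GQ Qb)

variable (q : Nat.Primes)

theorem cycAux_GT {ζ : Qb} (hζ : ζ ^ (q : ℕ) = 1) : (wq q).GT (ζ - 1) 0 :=
  GT_sub_one_of_pow q.2 (wq_q q) (by rw [hζ, sub_self]; exact RVal.GT_zero 0)

theorem cycAux_ne {ζ : Qb} (hζ : IsPrimitiveRoot ζ (q : ℕ)) : ζ - 1 ≠ 0 :=
  sub_ne_zero.2 (hζ.ne_one q.2.one_lt)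

/-- `ϖ^(q-1) = - q Q(ϖ)` -/
theorem cycAux_pow {ζ : Qb} (hζ : IsPrimitiveRoot ζ (q : ℕ)) :
    (ζ - 1) ^ ((q : ℕ) - 1) = -(((q : ℕ) : Qb) * asQ (q : ℕ) (ζ - 1)) := by
  have h1 := as_pi_pow q.2 (ϖ := ζ - 1) (by rw [add_sub_cancel, hζ.pow_eq_one])
  have h2 : (ζ - 1) ^ (q : ℕ) = (ζ - 1) ^ ((q : ℕ) - 1) * (ζ - 1) := by
    rw [← pow_succ, Nat.sub_add_cancel q.2.pos]
  rw [h2] at h1
  exact mul_right_cancel₀ (cycAux_ne q hζ) (by linear_combination h1)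

theorem cycAux_asQ {ζ : Qb} (hζ : ζ ^ (q : ℕ) = 1) :
    (wq q).GT (asQ (q : ℕ) (ζ - 1) - 1) 0 := by
  have h := cycAux_GT q hζ
  have e : asQ (q : ℕ) (ζ - 1) - 1 = (ζ - 1) * asQ' (q : ℕ) (ζ - 1) := by rw [asQ_eq q.2]; ring
  rw [e]
  simpa using h.mul_GE (binAux_asQ' (h.GE le_rfl) (q : ℕ))

theorem w_pi {ζ : Qb} (hζ : IsPrimitiveRoot ζ (q : ℕ)) :
    (wq q).EQ (ζ - 1) (1 / (((q : ℕ) : ℝ) - 1)) := by
  have hne := cycAux_ne q hζ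
  have hq1 : (0 : ℝ) < ((q : ℕ) : ℝ) - 1 := by
    have : (1 : ℝ) < (q : ℕ) := by exact_mod_cast q.2.one_lt
    linarith
  have h1 : (wq q).EQ (asQ (q : ℕ) (ζ - 1)) 0 := EQ_zero_of_GT_sub_one (cycAux_asQ q hζ.pow_eq_one)
  have h2 : (wq q).EQ (((q : ℕ) : Qb)) 1 := ⟨q_ne_zero q, wq_q q⟩
  have h3 := (h2.mul h1).neg
  rw [← cycAux_pow q hζ] at h3
  have h4 := h3.2
  rw [RVal.w_pow hne, Nat.cast_sub q.2.one_le, Nat.cast_one] at h4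
  refine ⟨hne, ?_⟩
  rw [eq_div_iff hq1.ne']
  linarith

theorem GT_pi (hq2 : (q : ℕ) ≠ 2) {ζ : Qb} (hζ : IsPrimitiveRoot ζ (q : ℕ)) :
    (wq q).GT ((((q : ℕ) : Qb)) / (ζ - 1) ^ ((q : ℕ) - 1) + 1) 0 := by
  have h0 := cycAux_asQ q hζ.pow_eq_one
  have h1 : (wq q).EQ (asQ (q : ℕ) (ζ - 1)) 0 := EQ_zero_of_GT_sub_one h0
  have e : (((q : ℕ) : Qb)) / (ζ - 1) ^ ((q : ℕ) - 1) + 1 =
      (asQ (q : ℕ) (ζ - 1) - 1) * (asQ (q : ℕ) (ζ - 1))⁻¹ := by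
    rw [cycAux_pow q hζ]
    have := h1.1
    have := q_ne_zero q
    field_simp
    ring
  rw [e]
  simpa using h0.mul_GE (h1.inv.GE le_rfl)

theorem GT_sigma_pi {ζ : Qb} (hζ : IsPrimitiveRoot ζ (q : ℕ)) {σ : GQ} {c : ℕ} (hσ : σ ζ = ζ ^ c) :
    (wq q).GT (σ (ζ - 1) / (ζ - 1) - (c : Qb)) 0 := by
  have hne := cycAux_ne q hζ
  have h := cycAux_GT q hζ.pow_eq_one
  have hζ0 : (wq q).GE ζ 0 := (w_eq_zero_of_pow_eq_one q.2.pos hζ.pow_eq_one).GE le_rfl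
  have e : σ (ζ - 1) / (ζ - 1) - (c : Qb) = ∑ i ∈ Finset.range c, (ζ ^ i - 1 ^ i) := by
    rw [map_sub, map_one, hσ, Finset.sum_sub_distrib, ← geom_sum_mul, mul_div_assoc, div_self hne]
    simp
  rw [e]
  exact GT_sum _ _ _ _ fun i _ => GT_pow_sub_pow _ hζ0 ((RVal.EQ_one).GE le_rfl) h i

/-- (V1) the fixed field of inertia is unramified -/
theorem w_int_of_fixed {a : Qb} (ha : ∀ σ ∈ Iq q, σ a = a) (ha0 : a ≠ 0) :
    ∃ k : ℤ, (wq q).w a = k := by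
  obtain ⟨b, hb, hb0, hab⟩ := val_unr (isOp_Dq (q := q)) ((isOp_Dq (q := q)).stab a) (stab_le _ _)
    (fun σ hσ => ⟨hσ.2, ha σ hσ.1⟩) (mem_Fx_stab (Dq q) a) ha0
  obtain ⟨n, hn⟩ := w_int q hb hb0
  exact ⟨n, hab.trans hn⟩

/-- discreteness of the value group of `Fx H`, `H ≤ Iq q` of finite index -/
theorem w_of_relIndex {H : Subgroup GQ} (hH : H ≤ Iq q) (hfin : H.relIndex (Iq q) ≠ 0) {a : Qb}
    (ha : a ∈ Fx H) (ha0 : a ≠ 0) : ∃ k : ℤ, (H.relIndex (Iq q) : ℝ) * (wq q).w a = k := by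
  obtain ⟨y, hy, hy0, hyw⟩ := exists_norm_of_relIndex ((pres_Dq q).mono (Iq_le_Dq q)) hH hfin ha ha0
  obtain ⟨k, hk⟩ := w_int_of_fixed q (mem_Fx.1 hy) hy0
  exact ⟨k, hyw.symm.trans hk⟩

theorem cycAux_exists_prim : ∃ ζ : Qb, IsPrimitiveRoot ζ (q : ℕ) := by
  have : NeZero (((q : ℕ) : ℕ) : Qb) := ⟨q_ne_zero q⟩
  exact HasEnoughRootsOfUnity.exists_primitiveRoot Qb (q : ℕ)

/-- inertia moves `ζ_p` -/
theorem exists_moves (hq2 : (q : ℕ) ≠ 2) : ∃ σ₀ ∈ Iq q, ∃ ζ : Qb, ζ ^ (q : ℕ) = 1 ∧ σ₀ ζ ≠ ζ := by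
  by_contra hcon
  push Not at hcon
  obtain ⟨ζ, hζ⟩ := cycAux_exists_prim q
  obtain ⟨k, hk⟩ := w_int_of_fixed q (a := ζ - 1)
    (fun σ hσ => by rw [map_sub, map_one, hcon σ hσ ζ hζ.pow_eq_one]) (cycAux_ne q hζ)
  rw [(w_pi q hζ).2] at hk
  have hq3 : (3 : ℝ) ≤ (q : ℕ) := by
    have := q.2.two_le
    have : 3 ≤ (q : ℕ) := by omega
    exact_mod_cast this
  have h1 : (0 : ℝ) < 1 / (((q : ℕ) : ℝ) - 1) := by
    apply div_pos one_pos; linarith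
  have h2 : 1 / (((q : ℕ) : ℝ) - 1) < 1 := by
    rw [div_lt_one (by linarith)]; linarith
  rw [hk] at h1 h2
  have h1' : (0 : ℤ) < k := by exact_mod_cast h1
  have h2' : k < (1 : ℤ) := by exact_mod_cast h2
  omega

/-- the subgroup `I₁ = ker (ε mod p)` of inertia has index `≤ p - 1` -/
theorem relIndex_stab_zeta {ζ : Qb} (hζ : IsPrimitiveRoot ζ (q : ℕ)) :
    (stab (Iq q) ζ).relIndex (Iq q) ≠ 0 ∧ (stab (Iq q) ζ).relIndex (Iq q) ≤ (q : ℕ) - 1 := by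
  classical
  have hq0 : 0 < (q : ℕ) := q.2.pos
  let f : (↥(Iq q) ⧸ (stab (Iq q) ζ).subgroupOf (Iq q)) → primitiveRoots (q : ℕ) Qb :=
    Quotient.lift (s := QuotientGroup.leftRel _)
      (fun σ : Iq q => (⟨(σ : GQ) ζ, (mem_primitiveRoots hq0).2
        (hζ.map_of_injective (σ : GQ).injective)⟩ : primitiveRoots (q : ℕ) Qb)) (by
      intro a b hab
      have h1 : a⁻¹ * b ∈ (stab (Iq q) ζ).subgroupOf (Iq q) := QuotientGroup.leftRel_apply.1 hab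
      have h2 : ((a : GQ)⁻¹ * (b : GQ)) ζ = ζ := (Subgroup.mem_subgroupOf.1 h1).2
      apply Subtype.ext
      change (a : GQ) ζ = (b : GQ) ζ
      conv_lhs => rw [← h2]
      rw [← AlgEquiv.mul_apply, mul_inv_cancel_left])
  have hf : Function.Injective f := by
    intro x y
    induction x using Quotient.inductionOn
    induction y using Quotient.inductionOn
    rename_i a b
    intro hab
    have h1 : (a : GQ) ζ = (b : GQ) ζ := congrArg Subtype.val hab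
    apply Quotient.sound
    apply QuotientGroup.leftRel_apply.2
    refine Subgroup.mem_subgroupOf.2 ⟨(Iq q).mul_mem ((Iq q).inv_mem a.2) b.2, ?_⟩
    change ((a : GQ)⁻¹ * (b : GQ)) ζ = ζ
    rw [AlgEquiv.mul_apply, ← h1, inv_apply_apply]
  have hfin : Finite (↥(Iq q) ⧸ (stab (Iq q) ζ).subgroupOf (Iq q)) := Finite.of_injective f hf
  have hcard := Nat.card_le_card_of_injective f hf
  have hc2 : Nat.card (primitiveRoots (q : ℕ) Qb) = (q : ℕ) - 1 := by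
    rw [Nat.card_eq_fintype_card, Fintype.card_coe, hζ.card_primitiveRoots, Nat.totient_prime q.2]
  rw [hc2] at hcard
  refine ⟨?_, hcard⟩
  have : Nonempty (↥(Iq q) ⧸ (stab (Iq q) ζ).subgroupOf (Iq q)) := ⟨QuotientGroup.mk 1⟩
  exact Nat.card_pos.ne'

/-- (V4) the residue field of `Fx (Iq q)` is the whole residue field -/
theorem exists_fixed_congr {a : Qb} (ha : (wq q).GE a 0) :
    ∃ a' : Qb, (∀ σ ∈ Iq q, σ a' = a') ∧ (wq q).GE a' 0 ∧ (wq q).GT (a - a') 0 := by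
  by_cases h0 : (wq q).GT a 0
  · exact ⟨0, fun σ _ => map_zero σ, RVal.GE_zero 0, by rwa [sub_zero]⟩
  · have h1 : (wq q).EQ a 0 := by
      by_contra h
      exact h0 ((GT_iff_not_EQ _ ha).2 h)
    obtain ⟨M, η, hM, hη, hc⟩ := exists_root_congr q h1
    exact ⟨η, fun σ hσ => apply_root_of_mem_Iq q hσ hM hη,
      (w_eq_zero_of_pow_eq_one (inerAux_pos q hM) hη).GE le_rfl, hc⟩

/-- all rational numbers are values -/
theorem exists_w_eq (t : ℚ) : ∃ c : Qb, c ≠ 0 ∧ (wq q).w c = t := by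
  have hd : 0 < t.den := t.den_pos
  obtain ⟨c, hc⟩ := IsAlgClosed.exists_pow_nat_eq (((q : ℕ) : Qb) ^ t.num) hd
  have hc0 : c ≠ 0 := by
    intro h
    rw [h, zero_pow hd.ne'] at hc
    exact zpow_ne_zero _ (q_ne_zero q) hc.symm
  refine ⟨c, hc0, ?_⟩
  have h1 := congrArg (wq q).w hc
  rw [RVal.w_pow hc0, (w_q_zpow q t.num).2] at h1
  have hdR : (t.den : ℝ) ≠ 0 := by exact_mod_cast hd.ne'
  have h2 : (t : ℝ) = (t.num : ℝ) / (t.den : ℝ) := by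
    exact_mod_cast (Rat.num_div_den t).symm
  rw [h2, eq_div_iff hdR, mul_comm]
  exact h1

end Fermat.Agent.S33
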