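import Fermat.Agent.S34.Mod.Level
import Fermat.Agent.S55.B.Padic

/-!
# S33/VAL : the real valued Gauss valuation of `FN N` at `∞`, over `primeLocalPlace q`          key `S33/VAL`

`q : Nat.Primes`, `AA q = primeLocalPlace q`, `wq q : RVal Qb` (`S55/B/Padic.lean`; `w q = 1`).
`wG q N : RVal (FN N)` : `w x = w c` if `x = c * unit of Vinf` (`S34.Mod.exists_unit_scale`).  API of `RVal`: `S05/Defs.lean`, `S55/B/Res.lean`.
All proofs: unfold, `exists_unit_scale`, `inv_mem_Vinf`, `mem_of_algebraMap_mem_Vinf`, `exists_smul_of_resInf_eq_zero`, `resInf_*` of `S34/Mod/Res.lean`.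
`wG_eq` first (well defined: `c w = c' w'`, `w, w'` units of `Vinf` ⟹ `c / c'` is a unit of `A`), then everything follows from it.
`map_add`: WLOG `w x ≤ w y`, `x + y = c (u + (c'/c) u')`, `u + (c'/c) u' ∈ Vinf`, and `GE_zero_iff`.
-/

set_option autoImplicit false
set_option synthInstance.maxHeartbeats 400000
set_option maxHeartbeats 400000

open HahnSeries ModularCurve AlgebraicCurve Fermat.Agent.S24 Fermat.Agent.S29 Fermat.Agent.S18
  Fermat.Agent.ES Fermat.Agent.ES.Alg Fermat.Agent.S34.Mod Fermat.Agent.S05 Fermat.Agent.S55.B ExtCitation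
open Fermat.Agent.S55 (Dq Iq)

noncomputable section

namespace Fermat.Agent.S33

/-- the fixed place over `q` -/
abbrev AA (q : Nat.Primes) : ValuationSubring Kb := primeLocalPlace q

variable (q : Nat.Primes) (N : ℕ) [NeZero N]

open Classical in
/-- the value of the Gauss valuation -/
def wGfun (x : FN N) : ℝ :=
  if h : x = 0 then 0 else (wq q).w (exists_unit_scale (A := AA q) x h).choose

variable {q N}

theorem valAux_w_eq_zero {c : Kb} (hc : c ≠ 0) (h : algebraMap Kb (FN N) c ∈ Vinf (AA q) N)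
    (h' : (algebraMap Kb (FN N) c)⁻¹ ∈ Vinf (AA q) N) : (wq q).w c = 0 := by
  have h1 : c ∈ AA q := mem_of_algebraMap_mem_Vinf h
  have h2 : c⁻¹ ∈ AA q := mem_of_algebraMap_mem_Vinf (N := N) (by rw [map_inv₀]; exact h')
  have h3 := (wq_nonneg_iff q hc).mpr h1
  have h4 := (wq_nonneg_iff q (inv_ne_zero hc)).mpr h2
  rw [RVal.w_inv hc] at h4
  linarith

/-- well defined  (`u ≠ 0` is needed: helper19) -/
theorem wGfun_eq {x u : FN N} {c : Kb} (hc : c ≠ 0) (hx : x = algebraMap Kb (FN N) c * u)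
    (hu : u ∈ Vinf (AA q) N) (hu' : u⁻¹ ∈ Vinf (AA q) N) (hu0 : u ≠ 0) :
    wGfun q N x = (wq q).w c := by
  have hcF : algebraMap Kb (FN N) c ≠ 0 := (map_ne_zero _).2 hc
  have hx0 : x ≠ 0 := by rw [hx]; exact mul_ne_zero hcF hu0
  rw [wGfun, dif_neg hx0]
  obtain ⟨w0, z1, z2, hc0, e, hq, hz1, -, -⟩ := (exists_unit_scale (A := AA q) x hx0).choose_spec
  set c0 := (exists_unit_scale (A := AA q) x hx0).choose
  have hc0F : algebraMap Kb (FN N) c0 ≠ 0 := (map_ne_zero _).2 hc0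
  have hw0 : w0 ∈ Vinf (AA q) N := (mem_Vinf _ _).mpr ⟨z1, z2, hq⟩
  have hw0' : w0⁻¹ ∈ Vinf (AA q) N := (mem_Vinf _ _).mpr ⟨z2, z1, hq.inv hz1⟩
  have hw00 : w0 ≠ 0 := by
    rintro rfl
    rw [mul_zero] at e
    exact hx0 e
  have e1 : algebraMap Kb (FN N) (c0 / c) = u * w0⁻¹ := by
    rw [map_div₀, div_eq_iff hcF, eq_comm, mul_assoc, mul_comm, mul_assoc, ← hx, e, mul_comm w0⁻¹,
      mul_assoc, mul_inv_cancel₀ hw00, mul_one]
  have h0 := valAux_w_eq_zero (q := q) (N := N) (div_ne_zero hc0 hc) (by rw [e1]; exact mul_mem hu hw0')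
    (by rw [e1, mul_inv, inv_inv]; exact mul_mem hu' hw0)
  rw [RVal.w_div hc0 hc] at h0
  linarith

theorem valAux_nf {x : FN N} (hx : x ≠ 0) : ∃ (c : Kb) (u : FN N), c ≠ 0 ∧
    x = algebraMap Kb (FN N) c * u ∧ u ∈ Vinf (AA q) N ∧ u⁻¹ ∈ Vinf (AA q) N ∧ u ≠ 0 ∧
    wGfun q N x = (wq q).w c := by
  obtain ⟨c, w0, z1, z2, hc0, e, hq, hz1, -, -⟩ := exists_unit_scale (A := AA q) x hx
  have hw0 : w0 ∈ Vinf (AA q) N := (mem_Vinf _ _).mpr ⟨z1, z2, hq⟩
  have hw0' : w0⁻¹ ∈ Vinf (AA q) N := (mem_Vinf _ _).mpr ⟨z2, z1, hq.inv hz1⟩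
  have hw00 : w0 ≠ 0 := by
    rintro rfl
    rw [mul_zero] at e
    exact hx e
  exact ⟨c, w0, hc0, e, hw0, hw0', hw00, wGfun_eq hc0 e hw0 hw0' hw00⟩

theorem wGfun_mul {x y : FN N} (hx : x ≠ 0) (hy : y ≠ 0) :
    wGfun q N (x * y) = wGfun q N x + wGfun q N y := by
  obtain ⟨c, u, hc, e, hu, hu', hu0, hw⟩ := valAux_nf (q := q) hx
  obtain ⟨c', u', hc', e', hv, hv', hv0, hw'⟩ := valAux_nf (q := q) hy
  rw [hw, hw', ← (wq q).map_mul _ _ hc hc']
  refine wGfun_eq (u := u * u') (mul_ne_zero hc hc') ?_ (mul_mem hu hv) ?_ (mul_ne_zero hu0 hv0)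
  · rw [e, e', map_mul]; ring
  · rw [mul_inv]; exact mul_mem hu' hv'

theorem valAux_algebraMap {c : Kb} (hc : c ≠ 0) :
    wGfun q N (algebraMap Kb (FN N) c) = (wq q).w c :=
  wGfun_eq (u := 1) hc (by rw [mul_one]) (one_mem _) (by rw [inv_one]; exact one_mem _) one_ne_zero

theorem valAux_nonneg_iff {x : FN N} (hx : x ≠ 0) : 0 ≤ wGfun q N x ↔ x ∈ Vinf (AA q) N := by
  obtain ⟨c, u, hc, e, hu, hu', hu0, hw⟩ := valAux_nf (q := q) hx
  rw [hw, wq_nonneg_iff q hc]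
  constructor
  · intro h
    rw [e]
    exact mul_mem (algebraMap_mem_Vinf (⟨c, h⟩ : AA q)) hu
  · intro h
    apply mem_of_algebraMap_mem_Vinf (N := N)
    have : algebraMap Kb (FN N) c = x * u⁻¹ := by
      rw [e, mul_assoc, mul_inv_cancel₀ hu0, mul_one]
    rw [this]
    exact mul_mem h hu'

theorem valAux_add_le {x y : FN N} (hx : x ≠ 0) (hy : y ≠ 0) (hxy : x + y ≠ 0)
    (hle : wGfun q N x ≤ wGfun q N y) : wGfun q N x ≤ wGfun q N (x + y) := by
  have hxi : x⁻¹ ≠ 0 := inv_ne_zero hx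
  have h1 : wGfun q N x + wGfun q N x⁻¹ = 0 := by
    rw [← wGfun_mul hx hxi, mul_inv_cancel₀ hx]
    have := valAux_algebraMap (q := q) (N := N) (c := 1) one_ne_zero
    rw [map_one, RVal.w_one] at this
    exact this
  have h2 : y * x⁻¹ ∈ Vinf (AA q) N := by
    rw [← valAux_nonneg_iff (mul_ne_zero hy hxi), wGfun_mul hy hxi]
    linarith
  have h3 : (x + y) * x⁻¹ ∈ Vinf (AA q) N := by
    rw [add_mul, mul_inv_cancel₀ hx]
    exact add_mem (one_mem _) h2
  rw [← valAux_nonneg_iff (mul_ne_zero hxy hxi), wGfun_mul hxy hxi] at h3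
  linarith

theorem wGfun_add {x y : FN N} (hx : x ≠ 0) (hy : y ≠ 0) (hxy : x + y ≠ 0) :
    min (wGfun q N x) (wGfun q N y) ≤ wGfun q N (x + y) := by
  rcases le_total (wGfun q N x) (wGfun q N y) with h | h
  · rw [min_eq_left h]; exact valAux_add_le hx hy hxy h
  · rw [min_eq_right h, add_comm]
    exact valAux_add_le hy hx (by rwa [add_comm]) h

variable (q N)

/-- **the Gauss valuation at `∞`** -/
def wG : RVal (FN N) where
  w := wGfun q N
  map_mul := fun _ _ hx hy => wGfun_mul hx hy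
  map_add := fun _ _ hx hy hxy => wGfun_add hx hy hxy

variable {q N}

theorem wG_eq {x u : FN N} {c : Kb} (hc : c ≠ 0) (hx : x = algebraMap Kb (FN N) c * u)
    (hu : u ∈ Vinf (AA q) N) (hu' : u⁻¹ ∈ Vinf (AA q) N) (hu0 : u ≠ 0) :
    (wG q N).w x = (wq q).w c :=
  wGfun_eq hc hx hu hu' hu0

theorem wG_algebraMap {c : Kb} (hc : c ≠ 0) : (wG q N).w (algebraMap Kb (FN N) c) = (wq q).w c :=
  valAux_algebraMap hc

/-- the value group is that of `Kb`; normal form -/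
theorem exists_wG_eq {x : FN N} (hx : x ≠ 0) : ∃ (c : Kb) (u : FN N), c ≠ 0 ∧
    x = algebraMap Kb (FN N) c * u ∧ u ∈ Vinf (AA q) N ∧ u⁻¹ ∈ Vinf (AA q) N ∧
    (wG q N).w x = (wq q).w c := by
  obtain ⟨c, u, hc, e, hu, hu', -, hw⟩ := valAux_nf (q := q) hx
  exact ⟨c, u, hc, e, hu, hu', hw⟩

theorem GE_zero_iff {x : FN N} : (wG q N).GE x 0 ↔ x ∈ Vinf (AA q) N := by
  by_cases hx : x = 0
  · rw [hx]; exact ⟨fun _ => zero_mem _, fun _ => RVal.GE_zero 0⟩
  · rw [← valAux_nonneg_iff hx]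
    exact ⟨fun h => h.le_w hx, fun h => Or.inr h⟩

theorem valAux_mem_max {c : Kb} (hc : (wq q).GT c 0) :
    ∃ h : c ∈ AA q, (⟨c, h⟩ : AA q) ∈ IsLocalRing.maximalIdeal (AA q) := by
  have h1 := (GT_zero_iff_mem_nonunits q).mp hc
  have h2 : c ∈ AA q := (ValuationSubring.nonunits_le (A := AA q)) h1
  exact ⟨h2, (ValuationSubring.coe_mem_nonunits_iff (a := (⟨c, h2⟩ : AA q))).mp h1⟩

theorem GT_zero_iff (x : Vinf (AA q) N) : (wG q N).GT (x : FN N) 0 ↔ resInf (AA q) N x = 0 := by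
  constructor
  · rintro (h | h)
    · have : x = 0 := Subtype.ext h
      rw [this, map_zero]
    · have hx : (x : FN N) ≠ 0 := by
        intro h0
        rw [h0] at h
        have : (wG q N).w 0 = 0 := by
          show wGfun q N 0 = 0
          rw [wGfun, dif_pos rfl]
        rw [this] at h
        exact lt_irrefl _ h
      obtain ⟨c, u, hc, e, hu, -, hw⟩ := exists_wG_eq (q := q) hx
      rw [hw] at h
      obtain ⟨hcA, hcm⟩ := valAux_mem_max (q := q) (c := c) (Or.inr h)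
      exact resInf_smul_eq_zero hcm (y := ⟨u, hu⟩) e
  · intro h
    obtain ⟨a, ha, y, hy, e⟩ := exists_smul_of_resInf_eq_zero h
    by_cases hx : (x : FN N) = 0
    · exact Or.inl hx
    right
    have ha0 : (a : Kb) ≠ 0 := by
      intro h0
      rw [h0, map_zero, zero_mul] at e
      exact hx e
    have hy0 : y ≠ 0 := by
      rintro rfl
      rw [mul_zero] at e
      exact hx e
    rw [e, (wG q N).map_mul _ _ ((map_ne_zero _).2 ha0) hy0, wG_algebraMap ha0]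
    have h1 : 0 < (wq q).w (a : Kb) :=
      ((GT_zero_iff_mem_nonunits q).mpr (ValuationSubring.coe_mem_nonunits_iff.mpr ha)).lt_w ha0
    have h2 : 0 ≤ (wG q N).w y := (GE_zero_iff.mpr hy).le_w hy0
    linarith

theorem EQ_zero_iff (x : Vinf (AA q) N) : (wG q N).EQ (x : FN N) 0 ↔ resInf (AA q) N x ≠ 0 := by
  rw [Ne, ← GT_zero_iff]
  constructor
  · rintro ⟨h0, h1⟩ (h | h)
    · exact h0 h
    · rw [h1] at h; exact lt_irrefl _ h
  · intro h
    have h0 : (x : FN N) ≠ 0 := fun h0 => h (Or.inl h0)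
    refine ⟨h0, le_antisymm ?_ ((GE_zero_iff.mpr x.2).le_w h0)⟩
    by_contra h1
    exact h (Or.inr (not_le.mp h1))

theorem GE_iff {x : FN N} {c : Kb} (hc : c ≠ 0) : (wG q N).GE x ((wq q).w c) ↔
    ∃ y ∈ Vinf (AA q) N, x = algebraMap Kb (FN N) c * y := by
  have hcF : algebraMap Kb (FN N) c ≠ 0 := (map_ne_zero _).2 hc
  constructor
  · intro h
    refine ⟨(algebraMap Kb (FN N) c)⁻¹ * x, ?_, by rw [← mul_assoc, mul_inv_cancel₀ hcF, one_mul]⟩
    rw [← GE_zero_iff]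
    have h1 : (wG q N).GE (algebraMap Kb (FN N) c)⁻¹ (-(wq q).w c) :=
      Or.inr (by rw [RVal.w_inv hcF, wG_algebraMap hc])
    have := h1.mul h
    rwa [neg_add_cancel] at this
  · rintro ⟨y, hy, rfl⟩
    have h1 : (wG q N).GE (algebraMap Kb (FN N) c) ((wq q).w c) :=
      Or.inr (by rw [wG_algebraMap hc])
    have := h1.mul (GE_zero_iff.mpr hy)
    rwa [add_zero] at this

theorem GT_iff {x : FN N} {c : Kb} (hc : c ≠ 0) : (wG q N).GT x ((wq q).w c) ↔
    ∃ y : Vinf (AA q) N, resInf (AA q) N y = 0 ∧ x = algebraMap Kb (FN N) c * y := by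
  have hcF : algebraMap Kb (FN N) c ≠ 0 := (map_ne_zero _).2 hc
  constructor
  · intro h
    have h1 : (wG q N).GE (algebraMap Kb (FN N) c)⁻¹ (-(wq q).w c) :=
      Or.inr (by rw [RVal.w_inv hcF, wG_algebraMap hc])
    have h2 := h1.mul_GT h
    rw [neg_add_cancel] at h2
    have h3 : (algebraMap Kb (FN N) c)⁻¹ * x ∈ Vinf (AA q) N := GE_zero_iff.mp (h2.GE le_rfl)
    exact ⟨⟨_, h3⟩, (GT_zero_iff _).mp h2, by
      show x = algebraMap Kb (FN N) c * ((algebraMap Kb (FN N) c)⁻¹ * x)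
      rw [← mul_assoc, mul_inv_cancel₀ hcF, one_mul]⟩
  · rintro ⟨y, hy, rfl⟩
    have h1 : (wG q N).GE (algebraMap Kb (FN N) c) ((wq q).w c) :=
      Or.inr (by rw [wG_algebraMap hc])
    have := h1.mul_GT ((GT_zero_iff y).mpr hy)
    rwa [add_zero] at this

/-- a strict inequality leaves room (the value group is dense, but here simply: `w x` is a value) -/
theorem exists_of_GT {x : FN N} {t : ℝ} (h : (wG q N).GT x t) : ∃ c : Kb, c ≠ 0 ∧ t < (wq q).w c ∧
    (wG q N).GE x ((wq q).w c) := by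
  by_cases hx : x = 0
  · obtain ⟨n, hn⟩ := exists_nat_gt t
    refine ⟨((q : ℕ) : Kb) ^ n, pow_ne_zero _ (q_ne_zero q), ?_, Or.inl hx⟩
    rw [RVal.w_pow (q_ne_zero q), wq_q, mul_one]
    exact hn
  · obtain ⟨c, u, hc, -, -, -, hw⟩ := exists_wG_eq (q := q) hx
    exact ⟨c, hc, by rw [← hw]; exact h.lt_w hx, Or.inr hw.ge⟩

theorem valAux_GT_sub_one {f : FN N} (h : f ∈ Vinf (AA q) N) :
    (wG q N).GT (f - 1) 0 ↔ resInf (AA q) N ⟨f, h⟩ = 1 := by
  have hm : f - 1 ∈ Vinf (AA q) N := sub_mem h (one_mem _)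
  have e : (⟨f - 1, hm⟩ : Vinf (AA q) N) = (⟨f, h⟩ : Vinf (AA q) N) - 1 := rfl
  have h1 := GT_zero_iff (q := q) (N := N) (⟨f - 1, hm⟩ : Vinf (AA q) N)
  rw [e, map_sub, map_one, sub_eq_zero] at h1
  exact h1

theorem cong_iff_GT {f : FN N} : Cong (AA q) N f ↔ (wG q N).GT (f - 1) 0 := by
  rw [cong_iff]
  constructor
  · rintro ⟨h, h1⟩
    exact (valAux_GT_sub_one h).mpr h1
  · intro h
    have h1 : f - 1 ∈ Vinf (AA q) N := GE_zero_iff.mp (h.GE le_rfl)
    have h2 : f ∈ Vinf (AA q) N := by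
      have := add_mem h1 (one_mem _)
      rwa [sub_add_cancel] at this
    exact ⟨h2, (valAux_GT_sub_one h2).mp h⟩

theorem valAux_C (c : Kb) : (HahnSeries.C c : LaurentSeries Kb) = algebraMap Kb (LaurentSeries Kb) c := by
  rw [algebraMap_laurentSeries_eq_single]; rfl

/-- from a quotient of integral series -/
theorem GE_of_series {x : FN N} {c : Kb} (hc : c ≠ 0) {y1 y2 : LaurentSeries (AA q)}
    (h : (x : LaurentSeries Kb) * coeffMap (AA q).subtype y2 =
      HahnSeries.C c * coeffMap (AA q).subtype y1) (h2 : red (AA q) y2 ≠ 0) :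
    (wG q N).GE x ((wq q).w c) := by
  have hcF : algebraMap Kb (FN N) c ≠ 0 := (map_ne_zero _).2 hc
  rw [GE_iff hc]
  refine ⟨algebraMap Kb (FN N) c⁻¹ * x, (mem_Vinf _ _).mpr ⟨y1, y2, ?_, h2⟩, ?_⟩
  · show algebraMap Kb (LaurentSeries Kb) c⁻¹ * (x : LaurentSeries Kb) * _ = _
    rw [mul_assoc, h, valAux_C, ← mul_assoc, ← map_mul, inv_mul_cancel₀ hc, map_one, one_mul]
  · rw [← mul_assoc, ← map_mul, mul_inv_cancel₀ hc, map_one, one_mul]

/-- to a quotient of integral series, both in `FN N` -/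
theorem exists_series_of_GE {x : FN N} {c : Kb} (hc : c ≠ 0) (h : (wG q N).GE x ((wq q).w c)) :
    ∃ y1 y2 : LaurentSeries (AA q), MemF (AA q) N y1 ∧ MemF (AA q) N y2 ∧
      (x : LaurentSeries Kb) * coeffMap (AA q).subtype y2 =
        HahnSeries.C c * coeffMap (AA q).subtype y1 ∧ red (AA q) y2 ≠ 0 := by
  obtain ⟨y, hy, rfl⟩ := (GE_iff hc).mp h
  by_cases hy0 : y = 0
  · refine ⟨0, 1, ?_, ?_, ?_, by rw [map_one]; exact one_ne_zero⟩
    · show coeffMap (AA q).subtype 0 ∈ _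
      rw [map_zero]; exact zero_mem _
    · show coeffMap (AA q).subtype 1 ∈ _
      rw [map_one]; exact one_mem _
    · rw [hy0, mul_zero, map_zero, mul_zero]
      show (0 : LaurentSeries Kb) * _ = 0
      rw [zero_mul]
  obtain ⟨c', w0, z1, z2, hc', e, hq, hz1, m1, m2⟩ := exists_unit_scale (A := AA q) y hy0
  have hw0' : w0⁻¹ ∈ Vinf (AA q) N := (mem_Vinf _ _).mpr ⟨z2, z1, hq.inv hz1⟩
  have hw00 : w0 ≠ 0 := by
    rintro rfl
    rw [mul_zero] at e
    exact hy0 e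
  have hcA : c' ∈ AA q := by
    apply mem_of_algebraMap_mem_Vinf (N := N)
    have : algebraMap Kb (FN N) c' = y * w0⁻¹ := by
      rw [e, mul_assoc, mul_inv_cancel₀ hw00, mul_one]
    rw [this]
    exact mul_mem hy hw0'
  refine ⟨HahnSeries.single 0 (⟨c', hcA⟩ : AA q) * z1, z2, ?_, m2, ?_, hq.2⟩
  · show coeffMap (AA q).subtype _ ∈ _
    rw [map_mul, coeffMap_subtype_single]
    exact mul_mem ((modularFunctionFieldBar N).algebraMap_mem _) m1
  · rw [map_mul, coeffMap_subtype_single, ← hq.1, valAux_C, e]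
    show algebraMap Kb (LaurentSeries Kb) c * (algebraMap Kb (LaurentSeries Kb) c' *
      (w0 : LaurentSeries Kb)) * _ = _
    ring

/-- the decomposition group preserves the Gauss valuation -/
theorem wG_gal {σ : GQ} (hσ : σ ∈ Dq q) (x : FN N) : (wG q N).w (gal N σ x) = (wG q N).w x := by
  by_cases hx : x = 0
  · rw [hx, map_zero]
  obtain ⟨c, u, hc, e, hu, hu', hu0, hw⟩ := valAux_nf (q := q) hx
  have hw' : (wG q N).w x = (wq q).w c := hw
  rw [hw', ← pres_Dq q σ hσ c]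
  refine wG_eq (u := gal N σ u) ((map_ne_zero _).2 hc) ?_ (gal_mem_Vinf hσ hu) ?_
    ((map_ne_zero _).2 hu0)
  · rw [e, map_mul, gal_algebraMap]
  · rw [← map_inv₀]; exact gal_mem_Vinf hσ hu'

/-- inertia acts trivially on the residue field -/
theorem GT_gal_sub {σ : GQ} (hσ : σ ∈ Iq q) {x : FN N} (hx : (wG q N).GE x 0) :
    (wG q N).GT (gal N σ x - x) 0 := by
  have hx' : x ∈ Vinf (AA q) N := GE_zero_iff.mp hx
  have h1 := resInf_gal_inertia (A := AA q) hσ (⟨x, hx'⟩ : Vinf (AA q) N)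
  have h2 : resInf (AA q) N (⟨gal N σ x, gal_mem_Vinf (mem_decomp_of_mem_inertia hσ) hx'⟩ -
      ⟨x, hx'⟩) = 0 := by
    rw [map_sub, h1, sub_self]
  have h3 := (GT_zero_iff _).mpr h2
  rw [AddSubgroupClass.coe_sub] at h3
  exact h3

section Level

variable {M1 l : ℕ} [NeZero M1] [NeZero l]

theorem wG_alpha (x : FN M1) : (wG q (M1 * l)).w (heckeAlphaBar Kb M1 l x) = (wG q M1).w x := by
  by_cases hx : x = 0
  · rw [hx, map_zero]
    show wGfun q (M1 * l) 0 = wGfun q M1 0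
    rw [wGfun, wGfun, dif_pos rfl, dif_pos rfl]
  obtain ⟨c, u, hc, e, hu, hu', hu0, hw⟩ := valAux_nf (q := q) hx
  have hw' : (wG q M1).w x = (wq q).w c := hw
  rw [hw']
  refine wG_eq (u := heckeAlphaBar Kb M1 l u) hc ?_ (alpha_mem_Vinf hu) ?_ ((map_ne_zero _).2 hu0)
  · rw [e, map_mul, AlgHom.commutes]
  · rw [← map_inv₀]; exact alpha_mem_Vinf hu'

theorem wG_beta (x : FN M1) : (wG q (M1 * l)).w (heckeBetaBar Kb M1 l x) = (wG q M1).w x := by
  by_cases hx : x = 0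
  · rw [hx, map_zero]
    show wGfun q (M1 * l) 0 = wGfun q M1 0
    rw [wGfun, wGfun, dif_pos rfl, dif_pos rfl]
  obtain ⟨c, u, hc, e, hu, hu', hu0, hw⟩ := valAux_nf (q := q) hx
  have hw' : (wG q M1).w x = (wq q).w c := hw
  rw [hw']
  refine wG_eq (u := heckeBetaBar Kb M1 l u) hc ?_ (beta_mem_Vinf hu) ?_ ((map_ne_zero _).2 hu0)
  · rw [e, map_mul, AlgHom.commutes]
  · rw [← map_inv₀]; exact beta_mem_Vinf hu'

/-- the Gauss valuation at the cusp `0` (the second component) -/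
def wZ (q : Nat.Primes) (h : Nat.Coprime l M1) : RVal (FN (M1 * l)) where
  w := fun x => (wG q (M1 * l)).w (Wq h x)
  map_mul := fun x y hx hy => by
    rw [map_mul]
    exact (wG q (M1 * l)).map_mul _ _ ((map_ne_zero _).2 hx) ((map_ne_zero _).2 hy)
  map_add := fun x y hx hy hxy => by
    rw [map_add]
    exact (wG q (M1 * l)).map_add _ _ ((map_ne_zero _).2 hx) ((map_ne_zero _).2 hy)
      (by rw [← map_add]; exact (map_ne_zero _).2 hxy)

theorem wZ_apply (h : Nat.Coprime l M1) (x : FN (M1 * l)) :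
    (wZ q h).w x = (wG q (M1 * l)).w (Wq h x) := rfl

theorem wZ_GE_iff (h : Nat.Coprime l M1) {x : FN (M1 * l)} {t : ℝ} :
    (wZ q h).GE x t ↔ (wG q (M1 * l)).GE (Wq h x) t := by
  show (x = 0 ∨ _) ↔ (Wq h x = 0 ∨ _)
  rw [map_eq_zero_iff _ (Wq h).injective]
  rfl

theorem wZ_GT_iff (h : Nat.Coprime l M1) {x : FN (M1 * l)} {t : ℝ} :
    (wZ q h).GT x t ↔ (wG q (M1 * l)).GT (Wq h x) t := by
  show (x = 0 ∨ _) ↔ (Wq h x = 0 ∨ _)
  rw [map_eq_zero_iff _ (Wq h).injective]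
  rfl

end Level

end Fermat.Agent.S33
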